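import Fermat.Agent.Ribet.H375.ELOCOrdSpec
import Fermat.Agent.S59.H382.Global

/-!
# Row 38, WALL-p, ELOC-ord leaf (U) (helper382): `TwoUnitStatement`

Good reduction at the odd prime `p`: at an integral point of order `p`, `2y + a₁x + a₃` is a unit.
Proof: the normalised coordinate `1/ψ` of a point of odd order is integral
(`Fermat.Agent.S59.H382.coord_mem`, via the reduction homomorphism `Lib/Red`), and `ψ` is integral.
-/

set_option autoImplicit false
set_option linter.unnecessarySimpa false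

open WeierstrassCurve WeierstrassCurve.Affine WeierstrassCurve.Affine.Point

namespace Fermat.Agent.Ribet.H382

open Fermat.Agent.Lib.Red.H290
open Fermat.Agent.S59.H382 (EQ coord coord_mem isRedOf_EQ nrep nrep_some_eq n2_of_odd_nsmul N2
  Lf rep0)

/-- **(U)** of `Fermat/Agent/Ribet/H375/ELOCOrdSpec.lean`. -/
theorem twoUnit : Fermat.Agent.Ribet.H375.TwoUnitStatement := by
  intro W p hΔ hp hp2 hgood A hA x y h hP hx
  have : Fact p.Prime := ⟨hp⟩
  have hodd : Odd p := hp.odd_of_ne_two hp2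
  have hred := isRedOf_EQ (W := W) A
  -- `ψ ∈ A`
  have hy : y ∈ A := y_mem_of_x_mem hred h.1 hx
  have h2A : (2 : AlgebraicClosure ℚ) ∈ A := by
    have : ((2 : ℕ) : AlgebraicClosure ℚ) ∈ A := natCast_mem A 2
    simpa using this
  have hψA : 2 * y + (EQ W).a₁ * x + (EQ W).a₃ ∈ A :=
    A.add_mem _ _ (A.add_mem _ _ (A.mul_mem _ _ h2A hy) (A.mul_mem _ _ hred.m₁ hx)) hred.m₃
  -- `1/ψ ∈ A`
  have hmem := coord_mem (W := W) A hA hgood hp2 hodd hP 2
  have hn : coord W 2 (Point.some x y h) = 1 / (2 * y + (EQ W).a₁ * x + (EQ W).a₃) := by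
    show nrep (EQ W) (Point.some x y h) 2 = _
    rw [nrep_some_eq]
    rfl
  rw [hn] at hmem
  -- `ψ ≠ 0`
  have h2 : (2 : AlgebraicClosure ℚ) ≠ 0 := two_ne_zero
  have hN2 : N2 (EQ W) (Point.some x y h) := n2_of_odd_nsmul h2 hodd hP
  have hψ0 : 2 * y + (EQ W).a₁ * x + (EQ W).a₃ ≠ 0 := by
    have e : Lf (EQ W) (rep0 (EQ W) (Point.some x y h)) = 2 * y + (EQ W).a₁ * x + (EQ W).a₃ := by
      show Lf (EQ W) ![x, y, 1] = _
      simp [Lf]
    rw [N2, e] at hN2
    exact hN2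
  -- conclusion
  show A.valuation (2 * y + (EQ W).a₁ * x + (EQ W).a₃) = 1
  have hle : A.valuation (2 * y + (EQ W).a₁ * x + (EQ W).a₃) ≤ 1 :=
    (A.valuation_le_one_iff _).mpr hψA
  have hge : A.valuation (1 / (2 * y + (EQ W).a₁ * x + (EQ W).a₃)) ≤ 1 :=
    (A.valuation_le_one_iff _).mpr hmem
  rw [map_div₀, map_one, div_le_iff₀ (lt_of_le_of_ne zero_le (Ne.symm
    ((map_ne_zero A.valuation).mpr hψ0))), one_mul] at hge
  exact le_antisymm hle hge

end Fermat.Agent.Ribet.H382
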